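import Mathlib
import Fermat.Prelude.Def_ModularCurve_X0ModL
import Fermat.Agent.MUL.S36.Ig.EpsGen
import Fermat.Agent.MUL.S24.JFunAux2
import Fermat.Agent.MUL.F4.Ray.Main

section MergeWrap_S48_W_A1_EqExp -- from S48/W/A1/EqExp.lean

set_option autoImplicit false

noncomputable section

namespace Fermat.Agent.S48WA1Eq

open Filter Topology Set Function Complex UpperHalfPlane ModularForm
open Fermat.Agent.S23Converse Fermat.Agent.S24JFun Fermat.Agent.S24 Fermat.Agent.S48W
open Fermat.Agent.S48WA1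
open scoped Manifold MatrixGroups

local notation "𝕢" => Periodic.qParam

theorem qExpansion_E₆ :
    qExpansion 1 (E₆ : ℍ → ℂ) = PowerSeries.map (Int.castRingHom ℂ) eis6 := by
  ext m
  rw [PowerSeries.coeff_map, EisensteinSeries.E_qExpansion_coeff _ ⟨3, rfl⟩,
    eis6, PowerSeries.coeff_mk]
  by_cases h : m = 0
  · simp [h]
  · simp only [h, if_false]
    rw [ArithmeticFunction.sigma_apply]
    norm_num [show bernoulli 6 = 1 / 42 by decide +kernel]

theorem isGood_E₆ : IsGood (E₆ : ℍ → ℂ) :=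
  isGood_of_modularFormClass (Γ := 𝒮ℒ) (by simp) E₆

/-- The function `τ ↦ (E₄ E₆ / Δ)(τ) · q(τ)`. -/
def eq0 (τ : ℍ) : ℂ := E₄ τ * E₆ τ / ModularForm.discriminant τ * 𝕢 1 τ

theorem eq0_eq (τ : ℍ) : eq0 τ = E₄ τ * E₆ τ / eulerH τ ^ 24 := by
  rw [eq0, discriminant_eq_q_mul_eulerH]
  have h1 : 𝕢 1 (τ : ℂ) ≠ 0 := Periodic.qParam_ne_zero _
  have h2 := eulerH_ne_zero τ
  field_simp

theorem eq0_mul (τ : ℍ) : eq0 τ * eulerH τ ^ 24 = E₄ τ * E₆ τ := by
  rw [eq0_eq]
  have h2 := eulerH_ne_zero τ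
  field_simp

theorem eq0_eq_mul : eq0 = (E₄ : ℍ → ℂ) * (E₆ : ℍ → ℂ) * invEuler := by
  funext τ
  rw [eq0_eq]
  simp [invEuler, div_eq_mul_inv]

theorem isGood_eq0 : IsGood eq0 := by
  rw [eq0_eq_mul]
  exact (isGood_E₄.mul isGood_E₆).mul isGood_invEuler

theorem eq0_mul_fun : eq0 * eulerH ^ 24 = (E₄ : ℍ → ℂ) * (E₆ : ℍ → ℂ) := by
  funext τ
  exact eq0_mul τ

/-- The `q`-expansion of `(E₄ E₆ / Δ) · q` is the formal series `E₄ E₆ (η²⁴)⁻¹`. -/
theorem qExpansion_eq0 :
    qExpansion 1 eq0 = PowerSeries.map (Int.castRingHom ℂ)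
      (ModularCurve.eisenstein4 * eis6 * ModularCurve.dedekindEtaUnitInv) := by
  have h1 : qExpansion 1 eq0 * qExpansion 1 eulerH ^ 24
      = qExpansion 1 (E₄ : ℍ → ℂ) * qExpansion 1 (E₆ : ℍ → ℂ) := by
    rw [← isGood_eulerH.qExpansion_pow, ← isGood_eq0.qExpansion_mul (isGood_eulerH.pow 24),
      eq0_mul_fun, isGood_E₄.qExpansion_mul isGood_E₆]
  rw [qExpansion_eulerH, qExpansion_E₄, qExpansion_E₆] at h1
  have h2 : PowerSeries.map (Int.castRingHom ℂ)
        (ModularCurve.eisenstein4 * eis6 * ModularCurve.dedekindEtaUnitInv)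
      * PowerSeries.map (Int.castRingHom ℂ) ModularCurve.etaProd ^ 24
      = PowerSeries.map (Int.castRingHom ℂ) ModularCurve.eisenstein4
        * PowerSeries.map (Int.castRingHom ℂ) eis6 := by
    rw [← map_pow, ← map_mul, ← map_mul]
    congr 1
    rw [mul_assoc]
    have := ModularCurve.dedekindEtaUnit_mul_inv
    rw [ModularCurve.dedekindEtaUnit] at this
    rw [mul_comm ModularCurve.dedekindEtaUnitInv, this, mul_one]
  have h3 : PowerSeries.map (Int.castRingHom ℂ) ModularCurve.etaProd ^ 24 ≠ 0 := by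
    refine pow_ne_zero _ fun h => ?_
    have := congrArg (PowerSeries.constantCoeff (R := ℂ)) h
    rw [← PowerSeries.coeff_zero_eq_constantCoeff_apply, PowerSeries.coeff_map,
      PowerSeries.coeff_zero_eq_constantCoeff_apply, ModularCurve.constantCoeff_etaProd] at this
    simp at this
  exact mul_right_cancel₀ h3 (h1.trans h2.symm)

/-- `(E₄ E₆ / Δ)(τ) · q = ∑ cₙ qⁿ`, absolutely convergent. -/
theorem hasSum_eq0 (τ : ℍ) :
    Summable (fun n : ℕ => ‖((PowerSeries.coeff n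
        (ModularCurve.eisenstein4 * eis6 * ModularCurve.dedekindEtaUnitInv) : ℤ) : ℂ)‖
          * ‖𝕢 1 τ‖ ^ n) ∧
    HasSum (fun n : ℕ => ((PowerSeries.coeff n
        (ModularCurve.eisenstein4 * eis6 * ModularCurve.dedekindEtaUnitInv) : ℤ) : ℂ)
          * 𝕢 1 τ ^ n) (eq0 τ) := by
  have h := hasSum_qExpansion one_pos isGood_eq0.periodic isGood_eq0.holo isGood_eq0.bdd τ
  rw [qExpansion_eq0] at h
  have e : (fun m : ℕ => (PowerSeries.coeff m)
        ((PowerSeries.map (Int.castRingHom ℂ))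
          (ModularCurve.eisenstein4 * eis6 * ModularCurve.dedekindEtaUnitInv)) • 𝕢 1 (τ : ℂ) ^ m)
      = fun n : ℕ => ((PowerSeries.coeff n
        (ModularCurve.eisenstein4 * eis6 * ModularCurve.dedekindEtaUnitInv) : ℤ) : ℂ)
          * 𝕢 1 τ ^ n := by
    funext m
    rw [PowerSeries.coeff_map, smul_eq_mul]
    simp
  rw [e] at h
  refine ⟨?_, h⟩
  have := h.summable.norm
  simpa [norm_mul, norm_pow] using this

/-- `q · (E₄ E₆ / Δ)(τ) = ∑ cₙ qⁿ`, with coefficients in `ℚ̄`. -/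
theorem hasPExp_eqFun :
    HasPExp 1 (fun τ => eqFun τ * uParam 1 τ ^ 1)
      (PowerSeries.map (Int.castRingHom Kbar)
        (ModularCurve.eisenstein4 * eis6 * ModularCurve.dedekindEtaUnitInv)) := by
  intro τ
  have h := hasSum_eq0 τ
  have e1 : uParam 1 τ = Function.Periodic.qParam 1 (τ : ℂ) := by
    simp [uParam]
  have e2 : ∀ n : ℕ, iota (PowerSeries.coeff n
      (PowerSeries.map (Int.castRingHom Kbar)
        (ModularCurve.eisenstein4 * eis6 * ModularCurve.dedekindEtaUnitInv)))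
      = ((PowerSeries.coeff n
        (ModularCurve.eisenstein4 * eis6 * ModularCurve.dedekindEtaUnitInv) : ℤ) : ℂ) := by
    intro n
    rw [PowerSeries.coeff_map]
    simp
  have e3 : eqFun τ * uParam 1 τ ^ 1 = eq0 τ := by
    rw [pow_one, e1]
    rfl
  simp only [e2, e3]
  simp only [e1]
  exact h

theorem coeffEmb_eisQuot :
    ModularCurve.coeffEmb Kbar eisQuot
      = HahnSeries.single (-((1 : ℕ) : ℤ)) (1 : Kbar) * HahnSeries.ofPowerSeries ℤ Kbar
          (PowerSeries.map (Int.castRingHom Kbar)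
            (ModularCurve.eisenstein4 * eis6 * ModularCurve.dedekindEtaUnitInv)) := by
  unfold ModularCurve.coeffEmb eisQuot
  rw [map_mul, ModularCurve.coeffMap_single, map_one, ModularCurve.coeffMap_ofPowerSeries,
    ← RingHom.comp_apply (PowerSeries.map (algebraMap ℚ Kbar))
      (PowerSeries.map (Int.castRingHom ℚ)),
    ← PowerSeries.map_comp,
    RingHom.ext_int ((algebraMap ℚ Kbar).comp (Int.castRingHom ℚ)) (Int.castRingHom Kbar)]
  rfl

/-- **(A1-EQ)** the expansion of `E₄ E₆ / Δ` is the formal `eisQuot`. -/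
theorem eqExp : EqExpStatement :=
  ⟨1, PowerSeries.map (Int.castRingHom Kbar)
      (ModularCurve.eisenstein4 * eis6 * ModularCurve.dedekindEtaUnitInv),
    coeffEmb_eisQuot, hasPExp_eqFun⟩

end Fermat.Agent.S48WA1Eq
end
end MergeWrap_S48_W_A1_EqExp
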