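import Mathlib
import Fermat.Agent.MUL.S36.Ig.EpsGen
import Fermat.Agent.MUL.S24.Hol
import Fermat.Agent.MUL.F4.UC.Bridge

section MergeWrap_S48_W_A1_Hol -- from S48/W/A1/Hol.lean

set_option autoImplicit false

noncomputable section

namespace Fermat.Agent.S48WA1

open Fermat.Agent.S24 Fermat.Agent.S48.Eis1 Fermat.Agent.S48W UpperHalfPlane ModularCurve
open scoped MatrixGroups Real Manifold

namespace HolAux

/-- the scalar power series attached to a coefficient sequence. -/
def ser (c : ℕ → ℂ) : FormalMultilinearSeries ℂ ℂ ℂ := FormalMultilinearSeries.ofScalars ℂ c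

theorem ser_apply (c : ℕ → ℂ) (z : ℂ) (n : ℕ) : ser c n (fun _ => z) = c n * z ^ n := by
  rw [ser, FormalMultilinearSeries.ofScalars_apply_eq, smul_eq_mul]

theorem ser_norm (c : ℕ → ℂ) (n : ℕ) : ‖ser c n‖ = ‖c n‖ := by
  simp [ser]

/-- if `∑ ‖cₙ‖ ‖u(τ)‖ⁿ` converges for every `τ`, the radius of convergence is at least one. -/
theorem one_le_radius (M : ℕ) [NeZero M] (c : ℕ → ℂ)
    (h : ∀ τ : ℍ, Summable (fun n : ℕ => ‖c n‖ * ‖uParam M τ‖ ^ n)) :
    1 ≤ (ser c).radius := by
  refine ENNReal.le_of_forall_nnreal_lt fun r hr => ?_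
  have hr1 : (r : ℝ) < 1 := by exact_mod_cast hr
  by_cases hr0 : r = 0
  · subst hr0; simp
  have hrpos : (0 : ℝ) < r := lt_of_le_of_ne r.2 (fun e => hr0 (NNReal.coe_eq_zero.mp e.symm))
  obtain ⟨τ, hτ⟩ := exists_uParam_eq M (z := ((r : ℝ) : ℂ))
    (by exact_mod_cast hrpos.ne')
    (by rw [Complex.norm_real, Real.norm_of_nonneg (NNReal.coe_nonneg r)]; exact hr1)
  refine FormalMultilinearSeries.le_radius_of_summable _ ?_
  have := h τ
  rw [hτ, Complex.norm_real, Real.norm_of_nonneg (NNReal.coe_nonneg r)] at this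
  simpa only [ser_norm] using this

theorem differentiableOn_sum (M : ℕ) [NeZero M] (c : ℕ → ℂ)
    (h : ∀ τ : ℍ, Summable (fun n : ℕ => ‖c n‖ * ‖uParam M τ‖ ^ n)) :
    DifferentiableOn ℂ (ser c).sum (Metric.ball (0 : ℂ) 1) := by
  have hrad := one_le_radius M c h
  have hpos : 0 < (ser c).radius := lt_of_lt_of_le one_pos hrad
  have hfp := (ser c).hasFPowerSeriesOnBall hpos
  have han : AnalyticOnNhd ℂ (ser c).sum (Metric.eball (0 : ℂ) (ser c).radius) :=
    hfp.analyticOnNhd
  refine han.differentiableOn.mono ?_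
  intro z hz
  rw [Metric.mem_ball, dist_zero_right] at hz
  rw [Metric.mem_eball, edist_zero_right]
  refine lt_of_lt_of_le ?_ hrad
  rw [← ENNReal.ofReal_one, ← ofReal_norm]
  exact (ENNReal.ofReal_lt_ofReal_iff one_pos).mpr hz

end HolAux

open HolAux in
/-- a function with a power series expansion in `u` on all of `ℍ` is holomorphic. -/
theorem isHol_of_hasPExp (M : ℕ) [NeZero M] {f : Fun} {p : PowerSeries Kbar}
    (h : HasPExp M f p) : IsHol f := by
  set c : ℕ → ℂ := fun n => iota (PowerSeries.coeff n p) with hc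
  have hsum : ∀ τ : ℍ, Summable (fun n : ℕ => ‖c n‖ * ‖uParam M τ‖ ^ n) := fun τ => (h τ).1
  have hval : ∀ τ : ℍ, f τ = (ser c).sum (uParam M τ) := by
    intro τ
    have h2 := (h τ).2
    rw [FormalMultilinearSeries.sum]
    simp only [ser_apply]
    exact h2.tsum_eq.symm
  have hd := differentiableOn_sum M c hsum
  refine (UpperHalfPlane.mdifferentiable_iff (f := fun τ : ℍ => f τ)).mpr ?_
  have hM : (0 : ℝ) < M := Nat.cast_pos.mpr (Nat.pos_of_ne_zero (NeZero.ne M))
  have hq : DifferentiableOn ℂ (fun z : ℂ => Function.Periodic.qParam (M : ℝ) z)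
      upperHalfPlaneSet := by
    intro z _
    exact (Function.Periodic.differentiable_qParam (h := (M : ℝ)) z).differentiableWithinAt
  have hcomp : DifferentiableOn ℂ
      (fun z : ℂ => (ser c).sum (Function.Periodic.qParam (M : ℝ) z)) upperHalfPlaneSet := by
    refine DifferentiableOn.comp (t := Metric.ball (0 : ℂ) 1) hd hq ?_
    intro z hz
    rw [Metric.mem_ball, dist_zero_right]
    exact Function.Periodic.norm_qParam_lt_one hM hz
  refine hcomp.congr ?_
  intro z hz
  show f (ofComplex z) = _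
  rw [hval, uParam, UpperHalfPlane.ofComplex_apply_of_im_pos hz]

/-- `u` is holomorphic and nowhere zero. -/
theorem isHol_uFun_pow (M : ℕ) (m : ℕ) : IsHol (fun τ => uParam M τ ^ m) := by
  show MDifferentiable 𝓘(ℂ) 𝓘(ℂ) (fun τ : ℍ => uParam M τ ^ m)
  rw [UpperHalfPlane.mdifferentiable_iff]
  have hq : DifferentiableOn ℂ (fun z : ℂ => Function.Periodic.qParam (M : ℝ) z ^ m)
      upperHalfPlaneSet := by
    intro z _
    exact ((Function.Periodic.differentiable_qParam (h := (M : ℝ)) z).pow m).differentiableWithinAt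
  refine hq.congr ?_
  intro z hz
  show uParam M (ofComplex z) ^ m = _
  rw [uParam, UpperHalfPlane.ofComplex_apply_of_im_pos hz]

/-- a function with a Laurent expansion in `u` on all of `ℍ` is holomorphic. -/
theorem isHol_of_hasExp (M : ℕ) [NeZero M] {f : Fun} {a : LaurentSeries Kbar}
    (h : HasExp M f a) : IsHol f := by
  obtain ⟨m, p, -, hp⟩ := h
  have h1 : IsHol (fun τ => f τ * uParam M τ ^ m) := isHol_of_hasPExp M hp
  have h2 : IsHol (fun τ => uParam M τ ^ m) := isHol_uFun_pow M m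
  have h1' := (UpperHalfPlane.mdifferentiable_iff).1 h1
  have h2' := (UpperHalfPlane.mdifferentiable_iff).1 h2
  refine (UpperHalfPlane.mdifferentiable_iff (f := fun τ : ℍ => f τ)).mpr ?_
  have hdiv : DifferentiableOn ℂ
      (fun z => ((fun τ : ℍ => f τ * uParam M τ ^ m) ∘ ofComplex) z /
        ((fun τ : ℍ => uParam M τ ^ m) ∘ ofComplex) z) upperHalfPlaneSet := by
    refine h1'.div h2' ?_
    intro z _
    exact pow_ne_zero _ (uParam_ne_zero M _)
  refine hdiv.congr ?_
  intro z _
  show f (ofComplex z) = f (ofComplex z) * uParam M (ofComplex z) ^ m / uParam M (ofComplex z) ^ m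
  rw [mul_div_assoc, div_self (pow_ne_zero _ (uParam_ne_zero M _)), mul_one]

/-- `IsNZ` only depends on `r` modulo `M`. -/
theorem isNZ_emod {M : ℕ} {r s : ℤ} (h : IsNZ M r s) : IsNZ M (r % M) s := by
  intro h'
  exact h ⟨(Int.dvd_iff_emod_eq_zero).2 (by
    have := (Int.dvd_iff_emod_eq_zero).1 h'.1
    rwa [Int.emod_emod_of_dvd _ (dvd_refl _)] at this), h'.2⟩

/-- (A1-HOL) every `X_v` is holomorphic, from the expansion and the periodicity. -/
theorem xHol_of (hE : XExpStatement) (hP : XPeriodStatement) : XHolStatement := by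
  intro M _ r s hnz
  have hM : (M : ℤ) ≠ 0 := by exact_mod_cast NeZero.ne M
  have hMpos : (0 : ℤ) < M := by exact_mod_cast Nat.pos_of_ne_zero (NeZero.ne M)
  -- a primitive `M`-th root of unity in `ℚ̄` mapping to `e(1/M)`
  obtain ⟨ζ, hζ⟩ : ∃ ζ : Kbar, iota ζ = Complex.exp (2 * π * Complex.I / M) :=
    HasExp.exists_iota_eq_exp M
  have hnz' : IsNZ M (r % M) s := isNZ_emod hnz
  have h0 : IsHol (xFun M (r % M) s) :=
    isHol_of_hasPExp M (hE M ζ hζ (r % M) s (Int.emod_nonneg _ hM) (Int.emod_lt_of_pos _ hMpos) hnz')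
  have hper := (hP M (r % M) s hnz').1 (r / M) 0
  have e : r % M + M * (r / M) = r := Int.emod_add_mul_ediv r M
  rw [e, mul_zero, add_zero] at hper
  rw [hper]
  exact h0

/-- `E₄ E₆ / Δ` is holomorphic. -/
theorem isHol_eqFun : IsHol eqFun := by
  show MDifferentiable 𝓘(ℂ) 𝓘(ℂ)
    (fun τ : ℍ => ModularForm.E₄ τ * ModularForm.E₆ τ / ModularForm.discriminant τ)
  rw [UpperHalfPlane.mdifferentiable_iff]
  have h4 := (UpperHalfPlane.mdifferentiable_iff).1 (ModularFormClass.holo ModularForm.E₄)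
  have h6 := (UpperHalfPlane.mdifferentiable_iff).1 (ModularFormClass.holo ModularForm.E₆)
  have hΔ := (UpperHalfPlane.mdifferentiable_iff).1 (ModularFormClass.holo CuspForm.discriminant)
  have h : DifferentiableOn ℂ
      (fun z => ((ModularForm.E₄ : ℍ → ℂ) ∘ ofComplex) z * ((ModularForm.E₆ : ℍ → ℂ) ∘ ofComplex) z /
        ((CuspForm.discriminant : ℍ → ℂ) ∘ ofComplex) z) upperHalfPlaneSet := by
    refine (h4.mul h6).div hΔ ?_
    intro z _
    exact ModularForm.discriminant_ne_zero _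
  exact h

/-- (A1d-1) from the holomorphy of the `X_v`. -/
theorem frickeHol_of_xHol (hX : XHolStatement) : FrickeHolStatement := by
  intro M _ r s hnz
  exact IsHol.mul isHol_eqFun (hX M r s hnz)

/-- (A1d-1) every Fricke function is holomorphic. -/
theorem frickeHol_of (hE : XExpStatement) (hP : XPeriodStatement) : FrickeHolStatement :=
  frickeHol_of_xHol (xHol_of hE hP)

end Fermat.Agent.S48WA1
end
end MergeWrap_S48_W_A1_Hol
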