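import Mathlib
import Fermat.Agent.MUL.S36.Ig.EpsGen
import Fermat.Agent.MUL.S48.W.Hecke
import Fermat.Agent.MUL.S48.W.ProductDefs

section MergeWrap_S48_W_A1_FExp -- from S48/W/A1/FExp.lean

set_option autoImplicit false

noncomputable section

namespace Fermat.Agent.S48WA1

open Fermat.Agent.S24 Fermat.Agent.S48.Eis1 Fermat.Agent.S48W UpperHalfPlane ModularCurve
open scoped MatrixGroups Real

/-! ### change of variable `τ ↦ M τ` -/

theorem fexp_uParam_scale (M : ℕ) [NeZero M] (τ : ℍ) : uParam M (scale M τ) = uParam 1 τ := by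
  have hM : (M : ℂ) ≠ 0 := Nat.cast_ne_zero.mpr (NeZero.ne M)
  simp only [uParam, Function.Periodic.qParam, coe_scale]
  congr 1
  push_cast
  field_simp

theorem fexp_hasPExp_scale {M : ℕ} [NeZero M] {f : Fun} {p : PowerSeries Kbar}
    (h : HasPExp M f p) : HasPExp 1 (fun τ => f (scale M τ)) p := by
  intro τ
  have := h (scale M τ)
  rw [fexp_uParam_scale] at this
  exact this

theorem fexp_hasExp_scale {M : ℕ} [NeZero M] {f : Fun} {a : LaurentSeries Kbar}
    (h : HasExp M f a) : HasExp 1 (fun τ => f (scale M τ)) a := by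
  obtain ⟨m, p, rfl, hp⟩ := h
  refine ⟨m, p, rfl, ?_⟩
  have := fexp_hasPExp_scale hp
  refine HasExp.pexp_congr this fun τ => ?_
  show f (scale M τ) * uParam 1 τ ^ m = f (scale M τ) * uParam M (scale M τ) ^ m
  rw [fexp_uParam_scale]

/-! ### the expansion of `E₄ E₆ / Δ` in `u = q^{1/M}` -/

theorem fexp_eq_level (hEq : EqExpStatement) (M : ℕ) [NeZero M] :
    HasExp M eqFun (qExpand Kbar M (coeffEmb Kbar eisQuot)) := by
  have : NeZero (1 * M) := ⟨by rw [one_mul]; exact NeZero.ne M⟩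
  have h := HasExp.qExpand (M := 1) M hEq
  rwa [one_mul] at h

/-! ### the coefficients -/

theorem fexp_xCoeff_zero (M : ℕ) (ζ : Kbar) (a : ℤ) (ha : ¬ (M : ℤ) ∣ a) (n : ℕ) :
    xCoeff M ζ a 0 n = ((wpCoeff M (a : ZMod M) n : ℤ) : Kbar) := by
  unfold xCoeff wpCoeff
  rw [if_neg ha]
  simp only [zero_mul, neg_zero, zpow_zero, mul_one, add_zero, Int.cast_add, Int.cast_sub,
    Int.cast_mul, Int.cast_sum, Int.cast_ite, Int.cast_natCast, Int.cast_one, Int.cast_zero,
    Int.cast_ofNat]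

theorem fexp_series (M : ℕ) (ζ : Kbar) (a : ℤ) (ha : ¬ (M : ℤ) ∣ a) :
    coeffEmb Kbar (HahnSeries.ofPowerSeries ℤ ℚ
        ((wpSeries M (a : ZMod M)).map (Int.castRingHom ℚ)))
      = HahnSeries.ofPowerSeries ℤ Kbar (PowerSeries.mk (xCoeff M ζ a 0)) := by
  ext n
  rw [coeffEmb_coeff]
  by_cases hn : n < 0
  · rw [ModularCurve.ofPowerSeries_coeff_of_neg _ hn,
      ModularCurve.ofPowerSeries_coeff_of_neg _ hn, map_zero]
  · rw [not_lt] at hn
    obtain ⟨k, rfl⟩ := Int.eq_ofNat_of_zero_le hn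
    rw [HahnSeries.ofPowerSeries_apply_coeff, HahnSeries.ofPowerSeries_apply_coeff,
      PowerSeries.coeff_map, PowerSeries.coeff_mk, fexp_xCoeff_zero M ζ a ha, wpSeries,
      PowerSeries.coeff_mk]
    simp

theorem fexp_fricke (M : ℕ) [NeZero M] (ζ : Kbar) (a : ℤ) (ha : ¬ (M : ℤ) ∣ a) :
    coeffEmb Kbar (fricke M (a : ZMod M))
      = qExpand Kbar M (coeffEmb Kbar eisQuot) *
          HahnSeries.ofPowerSeries ℤ Kbar (PowerSeries.mk (xCoeff M ζ a 0)) := by
  rw [fricke, map_mul, coeffEmb_qExpand_w, fexp_series M ζ a ha]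

/-! ### reduction of the first index modulo `M` -/

theorem fexp_isNZ_emod {M : ℕ} [NeZero M] {r s : ℤ} (h : IsNZ M r s) : IsNZ M (r % M) s := by
  intro h'
  exact h ⟨(Int.dvd_iff_emod_eq_zero).mpr (by
    have := (Int.dvd_iff_emod_eq_zero).mp h'.1
    rwa [Int.emod_emod_of_dvd _ (dvd_refl _)] at this), h'.2⟩

theorem fexp_xFun_emod (hP : XPeriodStatement) {M : ℕ} [NeZero M] {r s : ℤ} (h : IsNZ M r s) :
    xFun M r s = xFun M (r % M) s := by
  have h1 := (hP M (r % M) s (fexp_isNZ_emod h)).1 (r / M) 0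
  rw [mul_zero, add_zero, Int.emod_add_mul_ediv] at h1
  exact h1

theorem fexp_emod_range {M : ℕ} [NeZero M] (r : ℤ) : 0 ≤ r % (M : ℤ) ∧ r % (M : ℤ) < M := by
  have hM : (M : ℤ) ≠ 0 := by exact_mod_cast NeZero.ne M
  have hM' : (0 : ℤ) < M := by exact_mod_cast Nat.pos_of_ne_zero (NeZero.ne M)
  exact ⟨Int.emod_nonneg _ hM, Int.emod_lt_of_pos _ hM'⟩

/-! ### the statements -/

theorem frickeExp_of (hX : XExpStatement) (hP : XPeriodStatement) (hEq : EqExpStatement) :
    FrickeExpStatement := by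
  intro M _
  obtain ⟨ζ, hζ⟩ := HasExp.exists_iota_eq_exp M
  refine ⟨fun r s hrs => ?_, fun a ha0 haM => ?_⟩
  · have hr := fexp_emod_range (M := M) r
    have h1 := hX M ζ hζ (r % M) s hr.1 hr.2 (fexp_isNZ_emod hrs)
    have h2 := (fexp_eq_level hEq M).mul (HasExp.of_hasPExp h1)
    refine ⟨qExpand Kbar M (coeffEmb Kbar eisQuot) *
      HahnSeries.ofPowerSeries ℤ Kbar (PowerSeries.mk (xCoeff M ζ (r % M) s)), ?_⟩
    rw [frickeFun, fexp_xFun_emod hP hrs]
    exact h2
  · have hnd : ¬ (M : ℤ) ∣ a := fun h => by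
      have := Int.le_of_dvd ha0 h
      omega
    have hnz : IsNZ M a 0 := fun h => hnd h.1
    have h1 := hX M ζ hζ a 0 ha0.le haM hnz
    have h2 := (fexp_eq_level hEq M).mul (HasExp.of_hasPExp h1)
    rw [fexp_fricke M ζ a hnd]
    exact h2

theorem frickeOneExp_of (hX : XExpStatement) (hP : XPeriodStatement) (hEq : EqExpStatement) :
    FrickeOneExpStatement := by
  intro M _ a ha
  have hr := fexp_emod_range (M := M) a
  have hnz : IsNZ M a 0 := fun h => ha h.1
  have hne : a % (M : ℤ) ≠ 0 := fun h => ha ((Int.dvd_iff_emod_eq_zero).mpr h)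
  have hpos : 0 < a % (M : ℤ) := lt_of_le_of_ne hr.1 (Ne.symm hne)
  have h1 := (frickeExp_of hX hP hEq M).2 (a % M) hpos hr.2
  have h2 := fexp_hasExp_scale h1
  have e1 : ((a % (M : ℤ) : ℤ) : ZMod M) = (a : ZMod M) := by
    rw [ZMod.intCast_eq_intCast_iff]
    exact Int.mod_modEq a M
  rw [e1] at h2
  have e2 : frickeOne M a = fun τ => frickeFun M (a % M) 0 (scale M τ) := by
    funext τ
    rw [frickeOne, frickeFun, frickeFun, fexp_xFun_emod hP hnz]
  rw [e2]
  exact h2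

end Fermat.Agent.S48WA1
end
end MergeWrap_S48_W_A1_FExp
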