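import Mathlib
import Fermat.Agent.MUL.S48.W.A1.Wire
import Fermat.Agent.MUL.S48.W.A1.XExp
import Fermat.Agent.MUL.Orig.S48.Bnd.Rep

section MergeWrap_S48_W_A1_Final -- from S48/W/A1/Final.lean

set_option autoImplicit false

noncomputable section

namespace Fermat.Agent.S48WA1

open Fermat.Agent.S24 Fermat.Agent.S48W

theorem xHol : XHolStatement := a1_xHol_of xExp

theorem frickeHol : FrickeHolStatement := a1_frickeHol_of xExp

theorem frickeExp : FrickeExpStatement := a1_frickeExp_of xExp

theorem frickeOneExp : FrickeOneExpStatement := a1_frickeOneExp_of xExp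

theorem frickeIntegral : FrickeIntegralStatement := a1_frickeIntegral_of xExp

/-- **(A1d)**, `ℚ`-form. -/
theorem frickeAlgebraicOne (M : ℕ) [NeZero M] : FrickeAlgebraicOne M :=
  a1_frickeAlgebraicOne_of xExp M

/-- **(A1d)**, `ℚ̄`-form. -/
theorem frickeAlgebraicBarOne (M : ℕ) [NeZero M] : FrickeAlgebraicBarOne M :=
  a1_frickeAlgebraicBarOne_of xExp M

/-- **(A1b)** the diamond substitution over `ℂ`. -/
theorem diamondComplexOne (M : ℕ) [NeZero M] : DiamondComplexOne M :=
  a1_diamondComplexOne_of xExp M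

end Fermat.Agent.S48WA1
end
end MergeWrap_S48_W_A1_Final
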